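import Fermat.Agent.S17.Gen.Ext
import Fermat.Agent.S17.Loc.Basic
import Fermat.Agent.S27.BC.Field

/-!
# S17 / Gen 2 : generic places
-/

set_option autoImplicit false

open AlgebraicCurve

namespace Fermat.Agent.S17.Gen

open S27 VT Loc

section Point

variable {k Ω F FΩ : Type*} [Field k] [Field Ω] [Field F] [Field FΩ]
  [Algebra k Ω] [Algebra k F] [Algebra Ω FΩ] [Algebra F FΩ] [Algebra k FΩ]
  [IsScalarTower k Ω FΩ] [IsScalarTower k F FΩ]
  [IsAlgClosed k] [CharZero k] [IsAlgClosed Ω] [CharZero Ω] [IsFF k F] [IsFF Ω FΩ] [IsBC k Ω F FΩ]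

variable (FΩ) in
/-- **[Gen-3]** a `k`-embedding `F → Ω` is the evaluation at a place of `FΩ`.
(`ψ : F ⊗[k] Ω → Ω`, `f ⊗ c ↦ ι f * c`; a place of `FΩ` dominating the localisation of `F ⊗ Ω` at `ker ψ` :
copy of S27/BC/Ext.lean `exists_isOver`.) -/
theorem exists_place_of_algHom (ι : F →ₐ[k] Ω) :
    ∃ 𝔔 : Place Ω FΩ, ∀ u : F, 𝔔.adicValuation (algebraMap F FΩ u) ≤ 1 ∧
      val 𝔔 (algebraMap F FΩ u) = ι u := by
  sorry

end Point

/-- **[Gen-4]** generic data : `n` generic places and `m` generic parameters, which can be specialised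
simultaneously to arbitrary places `P j` of `F` and arbitrary values `cb i : k`.
(`exists_generic` with `A = F`, `B j` = the valuation ring of `P j`, `θ j = S27.valHom (P j)`;
`exists_place_of_algHom`; `Loc.redPl_eq_of_forall`.) -/
theorem exists_genericData (k F : Type) [Field k] [IsAlgClosed k] [CharZero k] [Field F] [Algebra k F]
    [IsFF k F] (n m : ℕ) :
    ∃ (Ω : Type) (_ : Field Ω) (_ : Algebra k Ω) (_ : IsAlgClosed Ω) (_ : CharZero Ω)
      (𝔔 : Fin n → Place Ω (BCField k Ω F)) (c : Fin m → Ω),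
      ∀ (P : Fin n → Place k F) (cb : Fin m → k),
        ∃ (O : ValuationSubring Ω) (hO : IsKRat k O),
          (∀ j, redPl F (BCField k Ω F) hO (𝔔 j) = P j) ∧
          ∀ i, c i ∈ O ∧ hO.res (c i) = cb i := by
  sorry

end Fermat.Agent.S17.Gen
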