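import Fermat.Agent.S17.VT.Chevalley
import Fermat.Agent.S27.TensorDomain

/-!
# S17 / Gen 1 : adjoining a generic point of a `k`-variety to a field with many valuation rings
-/

set_option autoImplicit false

open scoped TensorProduct

namespace Fermat.Agent.S17.Gen

open VT

variable (k : Type) [Field k] [IsAlgClosed k]

/-- **[Gen-1]**  `A` a `k`-domain, `Ω₀ ⊇ k` a field.  There is an algebraically closed field `Ω₁` containing
`Ω₀` and a copy of `A` such that every valuation ring `O₀` of `Ω₀` (residue field `k`) and every `k`-point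
`θ` of a subalgebra `B` of `A` are induced by a valuation ring `O₁` of `Ω₁` (residue field `k`).

Proof.  `Ω₁ := AlgebraicClosure (FractionRing (A ⊗[k] Ω₀))` (`S27.isDomain_tensor_of_isAlgClosed`).
`B ⊗[k] O₀ → A ⊗[k] Ω₀` is injective (flatness over the field `k`), so its image `R` in `Ω₁` is a subalgebra
isomorphic to `B ⊗[k] O₀`, on which `θ ⊗ res : R → k` is a `k`-algebra homomorphism;
`exists_isKRat_of_algHom` gives `O₁`.  `O₁ ∩ Ω₀ ⊇ O₀` and `𝔪₁ ∩ O₀ = 𝔪₀`, so `O₁ ∩ Ω₀ = O₀`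
(if `x ∉ O₀` then `x⁻¹ ∈ 𝔪₀ ⊆ 𝔪₁`, so `x ∉ O₁`). -/
theorem exists_extension (Ω₀ : Type) [Field Ω₀] [Algebra k Ω₀] (A : Type) [CommRing A] [IsDomain A]
    [Algebra k A] :
    ∃ (Ω₁ : Type) (_ : Field Ω₁) (_ : Algebra k Ω₁) (_ : IsAlgClosed Ω₁) (e : Ω₀ →ₐ[k] Ω₁)
      (ι : A →ₐ[k] Ω₁),
      ∀ (O₀ : ValuationSubring Ω₀) (hO₀ : IsKRat k O₀) (B : Subalgebra k A) (θ : B →ₐ[k] k),
        ∃ (O₁ : ValuationSubring Ω₁) (hO₁ : IsKRat k O₁),
          (∀ x : Ω₀, x ∈ O₀ → e x ∈ O₁ ∧ hO₁.res (e x) = hO₀.res x) ∧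
          ∀ b : B, ι (b : A) ∈ O₁ ∧ hO₁.res (ι (b : A)) = θ b := by
  sorry

/-- **[Gen-2]**  `n` independent generic points of `Spec A` and `m` independent parameters.
(Induction on `n` with `exists_extension`, starting from `Ω₀ = k`, `O₀ = ⊤`; one last step with
`A = MvPolynomial (Fin m) k`, `B = ⊤`, `θ = ` evaluation at `c̄`.) -/
theorem exists_generic (A : Type) [CommRing A] [IsDomain A] [Algebra k A] (n m : ℕ) :
    ∃ (Ω : Type) (_ : Field Ω) (_ : Algebra k Ω) (_ : IsAlgClosed Ω) (ι : Fin n → A →ₐ[k] Ω)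
      (c : Fin m → Ω),
      ∀ (B : Fin n → Subalgebra k A) (θ : ∀ j, B j →ₐ[k] k) (cb : Fin m → k),
        ∃ (O : ValuationSubring Ω) (hO : IsKRat k O),
          (∀ j, ∀ b : B j, ι j (b : A) ∈ O ∧ hO.res (ι j (b : A)) = θ j b) ∧
          ∀ i, c i ∈ O ∧ hO.res (c i) = cb i := by
  sorry

end Fermat.Agent.S17.Gen
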